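import Fermat.Agent.S55.H654.Selmer
import Fermat.Agent.S55.Spec.Datum

set_option autoImplicit false
set_option linter.style.haveILetI false
set_option linter.unusedSectionVars false
set_option linter.unusedVariables false

/-!
# S55, engine input GD10 (helper654): `H1FiniteSpec`

`Tow.H1FiniteSpec S p` (finiteness of `H¹_S`) for `p ∈ S`, from `finiteDimensional_continuousH1S`;
and the second half of GD9 (`μ_p` lives at some level).
-/

namespace Fermat.Agent.S55.H654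

open groupCohomology IntermediateField ExtCitation

attribute [local instance] Fermat.Agent.S55.Bridge.isAlgebraic_Qbar
  Fermat.Agent.S55.Bridge.isGalois_Qbar

variable {p : ℕ} [Fact p.Prime] (S : Finset Nat.Primes)

/-- **GD10.** -/
theorem h1FiniteSpec (hpS : pPrime p ∈ S) : Tow.H1FiniteSpec S p := by
  intro N _ hN
  obtain ⟨L, hL⟩ := hN
  have hsm : ∀ m : N, ∃ F : IntermediateField ℚ (AlgebraicClosure ℚ),
      FiniteDimensional ℚ F ∧ ∀ s ∈ F.fixingSubgroup, N.ρ s m = m :=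
    fun m => ⟨L.F, L.unram.1, fun s hs => by rw [hL s hs]; rfl⟩
  have hur : ∀ q : Nat.Primes, q ∉ S → ∀ V : ValuationSubring (AlgebraicClosure ℚ),
      V.LiesOverPrime (q : ℕ) → ∀ g ∈ V.inertiaSubgroupIn ℚ, N.ρ g = 1 :=
    fun q hq V hV g hg => hL g (L.unram.2 q hq V hV hg)
  exact finiteDimensional_continuousH1S S hpS N hsm hur

/-- Second half of **GD9**: `μ_p` lives at some level (for `p ∈ S`). -/
theorem exists_level_rootsOfUnity (hpS : pPrime p ∈ S) :
    ∃ L₀ : Tow.Level S, ∀ ζ : Tow.Qbar, ζ ^ p = 1 → ζ ∈ L₀.F := by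
  let M : Rep.{0, 0, 0} (ZMod p) (AlgebraicClosure ℚ ≃ₐ[ℚ] AlgebraicClosure ℚ) :=
    Rep.trivial (ZMod p) (AlgebraicClosure ℚ ≃ₐ[ℚ] AlgebraicClosure ℚ) (ZMod p)
  haveI : FiniteDimensional (ZMod p) M :=
    inferInstanceAs (FiniteDimensional (ZMod p) (ZMod p))
  have hsm : ∀ m : M, ∃ F : IntermediateField ℚ (AlgebraicClosure ℚ),
      FiniteDimensional ℚ F ∧ ∀ s ∈ F.fixingSubgroup, M.ρ s m = m :=
    fun m => ⟨⊥, inferInstance, fun s _ => rfl⟩
  have hur : ∀ q : Nat.Primes, q ∉ S → ∀ V : ValuationSubring (AlgebraicClosure ℚ),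
      V.LiesOverPrime (q : ℕ) → ∀ g ∈ V.inertiaSubgroupIn ℚ, M.ρ g = 1 :=
    fun q hq V hV g hg => rfl
  obtain ⟨L, hL, hGal, -, hcyc, -⟩ := Bridge.exists_common_galois_level M S hpS hsm hur
  refine ⟨⟨L, hL, (InfiniteGalois.normal_iff_isGalois L).mpr hGal⟩, fun ζ hζ => ?_⟩
  exact primitiveRoot_mem_of_cycloChar L hcyc hζ

end Fermat.Agent.S55.H654
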