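import Fermat.Agent.S55.H654.GD10

set_option autoImplicit false
set_option linter.style.haveILetI false
set_option linter.unusedSectionVars false
set_option linter.unusedVariables false

/-!
# S55, engine input GD9 (helper654): `SUnitsDivSpec`

The `S`-units are `p`-divisible in the tower of `S`-levels (`p ∈ S`): if `e ∈ Fˣ` is an `S`-unit
and `β ^ p = e`, then inertia at `ℓ ∉ S` fixes `β`, so `β` lives at an `S`-level.
-/

namespace Fermat.Agent.S55.H654

open groupCohomology IntermediateField ExtCitation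

attribute [local instance] Fermat.Agent.S55.Bridge.isAlgebraic_Qbar
  Fermat.Agent.S55.Bridge.isGalois_Qbar

variable {p : ℕ} [Fact p.Prime]

/-- A valuation-unit `β` whose `p`-th power is fixed by an inertia element `σ` at `ℓ ≠ p` is
itself fixed by `σ`. -/
theorem inertia_fixes_root {ℓ : ℕ} (hℓ : ℓ.Prime) (hℓp : ℓ ≠ p)
    (A : ValuationSubring (AlgebraicClosure ℚ)) (hA : A.LiesOverPrime ℓ)
    {σ : AlgebraicClosure ℚ ≃ₐ[ℚ] AlgebraicClosure ℚ} (hσ : σ ∈ A.inertiaSubgroupIn ℚ)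
    {β : AlgebraicClosure ℚ} (hβA : β ∈ A) (hβA' : β⁻¹ ∈ A) (hσe : σ (β ^ p) = β ^ p) :
    σ β = β := by
  have hp0 : p ≠ 0 := (Fact.out : p.Prime).ne_zero
  by_cases hβ0 : β = 0
  · rw [hβ0, map_zero]
  have hvβ : A.valuation β = 1 := by
    apply le_antisymm ((A.valuation_le_one_iff β).2 hβA)
    have h1 : A.valuation β⁻¹ ≤ 1 := (A.valuation_le_one_iff β⁻¹).2 hβA'
    rw [map_inv₀] at h1
    have hv0 : A.valuation β ≠ 0 := (Valuation.ne_zero_iff _).2 hβ0
    exact (inv_le_one₀ (zero_lt_iff.2 hv0)).1 h1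
  by_contra hne
  set η : AlgebraicClosure ℚ := σ β / β with hη
  have hηp : η ^ p = 1 := by
    rw [hη, div_pow, ← map_pow, hσe]
    exact div_self (pow_ne_zero _ hβ0)
  have hη1 : η ≠ 1 := by
    intro h
    apply hne
    rw [hη, div_eq_one_iff_eq hβ0] at h
    exact h
  have hηA : η ∈ A := by
    rw [← A.valuation_le_one_iff]
    have h1 : (A.valuation η) ^ p = 1 := by rw [← map_pow, hηp, map_one]
    exact le_of_eq ((pow_eq_one_iff.1 h1).resolve_right hp0)
  have hpv : A.valuation (p : AlgebraicClosure ℚ) = 1 :=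
    Bridge.val_prime_eq_one hA hℓ (Fact.out : p.Prime) hℓp
  have h1 : A.valuation (1 - η) = 1 := Bridge.val_one_sub_root_eq_one hpv hηp hη1 hηA
  have h2 : σ β - β ∈ A.nonunits := ((Bridge.mem_inertiaSubgroupIn_iff A σ).1 hσ).2 β hβA
  rw [ValuationSubring.mem_nonunits_iff] at h2
  have h3 : σ β - β = -((1 - η) * β) := by
    rw [hη]
    field_simp
    ring
  rw [h3, Valuation.map_neg, map_mul, h1, hvβ, mul_one] at h2
  exact lt_irrefl _ h2

/-- If inertia at `ℓ ∉ S` fixes `β` (for all `ℓ ∉ S`), then `ℚ(β)` is an `S`-level. -/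
theorem isUnramifiedOutside_adjoin_simple (S : Finset Nat.Primes) (β : AlgebraicClosure ℚ)
    (h : ∀ q : Nat.Primes, q ∉ S → ∀ A : ValuationSubring (AlgebraicClosure ℚ),
      A.LiesOverPrime (q : ℕ) → ∀ σ ∈ A.inertiaSubgroupIn ℚ, σ β = β) :
    (ℚ⟮β⟯).IsUnramifiedOutside S := by
  refine ⟨IntermediateField.adjoin.finiteDimensional (Algebra.IsIntegral.isIntegral β),
    fun q hq A hA σ hσ => ?_⟩
  have hσβ := h q hq A hA σ hσ
  have hle : ℚ⟮β⟯ ≤ IntermediateField.fixedField (Subgroup.zpowers σ) := by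
    rw [IntermediateField.adjoin_simple_le_iff, IntermediateField.mem_fixedField_iff]
    intro g hg
    have hst : Subgroup.zpowers σ ≤ MulAction.stabilizer
        (AlgebraicClosure ℚ ≃ₐ[ℚ] AlgebraicClosure ℚ) β := by
      rw [Subgroup.zpowers_le]
      exact hσβ
    exact hst hg
  rw [IntermediateField.mem_fixingSubgroup_iff]
  intro x hx
  have := hle hx
  rw [IntermediateField.mem_fixedField_iff] at this
  exact this σ (Subgroup.mem_zpowers σ)

/-- The action of `G_ℚ` on `ℚ̄ˣ` (additively written), elementwise. -/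
theorem unitsQbar_ρ_apply (g : Tow.GQ) (a : Tow.unitsQbar.V) :
    ((Additive.toMul (Tow.unitsQbar.ρ g a) : Tow.Qbarˣ) : Tow.Qbar) =
      g ((Additive.toMul a : Tow.Qbarˣ) : Tow.Qbar) := rfl

/-- **GD9, first half**: `S`-units are `p`-divisible in the tower. -/
theorem sUnits_div (S : Finset Nat.Primes) (hpS : pPrime p ∈ S) (L : Tow.Level S)
    (e : L.units.V) (he : L.IsSUnit e) :
    ∃ (L' : Tow.Level S) (h : L ≤ L') (e' : L'.units.V), L'.IsSUnit e' ∧
      p • e' = (Tow.Level.trUnits h).hom e := by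
  have hp0 : p ≠ 0 := (Fact.out : p.Prime).ne_zero
  -- the underlying element and a `p`-th root
  set ev : Tow.Qbarˣ := L.val e with hev
  obtain ⟨β, hβ⟩ := IsAlgClosed.exists_pow_nat_eq ((ev : Tow.Qbarˣ) : Tow.Qbar)
    (Nat.pos_of_ne_zero hp0)
  have hβ0 : β ≠ 0 := by
    intro h
    rw [h, zero_pow hp0] at hβ
    exact ev.ne_zero hβ.symm
  -- `e` is fixed by `U_F`
  have hefix : ∀ g ∈ L.U, g ((ev : Tow.Qbarˣ) : Tow.Qbar) = ((ev : Tow.Qbarˣ) : Tow.Qbar) := by
    intro g hg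
    have h1 := L.unitsCoe_fixed e g hg
    have h2 := congrArg (fun a : Tow.unitsQbar.V => ((Additive.toMul a : Tow.Qbarˣ) : Tow.Qbar)) h1
    exact h2
  -- `β` is a unit at every place outside `S`
  have hβunit : ∀ ℓ : Nat.Primes, ℓ ∉ S → ∀ A : ValuationSubring Tow.Qbar,
      A.LiesOverPrime (ℓ : ℕ) → β ∈ A ∧ β⁻¹ ∈ A := by
    intro ℓ hℓ A hA
    obtain ⟨h1, h2⟩ := he ℓ hℓ A hA
    rw [← A.valuation_le_one_iff] at h1 h2
    rw [Units.val_inv_eq_inv_val, map_inv₀] at h2
    have hv0 : A.valuation ((ev : Tow.Qbarˣ) : Tow.Qbar) ≠ 0 :=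
      (Valuation.ne_zero_iff _).2 ev.ne_zero
    have hv1 : A.valuation ((ev : Tow.Qbarˣ) : Tow.Qbar) = 1 :=
      le_antisymm h1 ((inv_le_one₀ (zero_lt_iff.2 hv0)).1 h2)
    have hvβ : A.valuation β = 1 := by
      have : (A.valuation β) ^ p = 1 := by rw [← map_pow, hβ, hv1]
      exact (pow_eq_one_iff.1 this).resolve_right hp0
    constructor
    · rw [← A.valuation_le_one_iff, hvβ]
    · rw [← A.valuation_le_one_iff, map_inv₀, hvβ, inv_one]
  -- inertia outside `S` fixes `β`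
  have hβfix : ∀ q : Nat.Primes, q ∉ S → ∀ A : ValuationSubring (AlgebraicClosure ℚ),
      A.LiesOverPrime (q : ℕ) → ∀ σ ∈ A.inertiaSubgroupIn ℚ, σ β = β := by
    intro q hq A hA σ hσ
    have hqp : (q : ℕ) ≠ p := by
      intro h
      apply hq
      have : q = pPrime p := Subtype.ext h
      rw [this]
      exact hpS
    obtain ⟨h1, h2⟩ := hβunit q hq A hA
    apply inertia_fixes_root q.2 hqp A hA hσ h1 h2
    rw [hβ]
    exact hefix σ (L.unram.2 q hq A hA hσ)
  have hF₁ : (L.F ⊔ ℚ⟮β⟯).IsUnramifiedOutside S :=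
    L.unram.sup (isUnramifiedOutside_adjoin_simple S β hβfix)
  obtain ⟨F', hF', hGal, hle⟩ := Bridge.exists_galois_level_ge S _ hF₁
  let L' : Tow.Level S := ⟨F', hF', (InfiniteGalois.normal_iff_isGalois F').mpr hGal⟩
  have h : L ≤ L' := (le_sup_left : L.F ≤ L.F ⊔ ℚ⟮β⟯).trans hle
  have hβF' : β ∈ F' := hle ((le_sup_right : ℚ⟮β⟯ ≤ L.F ⊔ ℚ⟮β⟯)
    (IntermediateField.mem_adjoin_simple_self ℚ β))
  let e' : L'.units.V := L'.unitsMk (Additive.ofMul (Units.mk0 β hβ0)) (fun g hg => by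
    apply Additive.toMul.injective
    apply Units.ext
    exact (IntermediateField.mem_fixingSubgroup_iff F' g).1 hg β hβF')
  refine ⟨L', h, e', ?_, ?_⟩
  · intro ℓ hℓ A hA
    exact hβunit ℓ hℓ A hA
  · apply L'.unitsCoe_injective
    apply Additive.toMul.injective
    apply Units.ext
    rw [map_nsmul]
    exact hβ

/-- **GD9.** -/
theorem sUnitsDivSpec (S : Finset Nat.Primes) (hpS : pPrime p ∈ S) : Tow.SUnitsDivSpec S p :=
  ⟨fun L e he => sUnits_div S hpS L e he, exists_level_rootsOfUnity S hpS⟩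

end Fermat.Agent.S55.H654
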