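import Fermat.Agent.S55.Bridge.Level

set_option autoImplicit false
set_option linter.style.haveILetI false
set_option linter.unusedSectionVars false
set_option linter.unusedVariables false

/-!
# S55, leaf G5-FIN (helper654), part 1: reduction of the finiteness of `continuousH1S`

`continuousH1S S M` is finite as soon as the set of `S`-level additive characters
`G_L → 𝔽_p` is finite, for one finite `L/ℚ` with `G_L` acting trivially on `M`.
-/

namespace Fermat.Agent.S55.H654

open groupCohomology IntermediateField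

attribute [local instance] Fermat.Agent.S55.Bridge.isAlgebraic_Qbar
  Fermat.Agent.S55.Bridge.isGalois_Qbar

/-- `S`-level additive characters of `G_L` with values in an additive group `X`. -/
def LevelChar (S : Finset Nat.Primes) (L : IntermediateField ℚ (AlgebraicClosure ℚ))
    (X : Type) [AddCommGroup X] : Set (L.fixingSubgroup → X) :=
  {χ | (∀ a b, χ (a * b) = χ a + χ b) ∧
    ∃ F : IntermediateField ℚ (AlgebraicClosure ℚ), F.IsUnramifiedOutside S ∧
      ∀ s : L.fixingSubgroup,
        (s : AlgebraicClosure ℚ ≃ₐ[ℚ] AlgebraicClosure ℚ) ∈ F.fixingSubgroup → χ s = 0}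

variable {p : ℕ} [Fact p.Prime] (S : Finset Nat.Primes)

/-- Finiteness of vector-valued level characters from the scalar case. -/
theorem finite_levelChar_of_scalar (L : IntermediateField ℚ (AlgebraicClosure ℚ))
    (M : Type) [AddCommGroup M] [Module (ZMod p) M] [FiniteDimensional (ZMod p) M]
    (hY : (LevelChar S L (ZMod p)).Finite) : (LevelChar S L M).Finite := by
  classical
  let b := Module.finBasis (ZMod p) M
  let Φ : (L.fixingSubgroup → M) → (Fin (Module.finrank (ZMod p) M) → L.fixingSubgroup → ZMod p) :=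
    fun ψ i n => b.repr (ψ n) i
  have hmaps : Set.MapsTo Φ (LevelChar S L M) (Set.pi Set.univ fun _ => LevelChar S L (ZMod p)) := by
    rintro ψ ⟨hadd, F, hF, hvan⟩ i -
    refine ⟨fun a b' => ?_, F, hF, fun s hs => ?_⟩
    · simp only [Φ, hadd, map_add, Finsupp.coe_add, Pi.add_apply]
    · simp only [Φ, hvan s hs, map_zero, Finsupp.coe_zero, Pi.zero_apply]
  have hinj : Set.InjOn Φ (LevelChar S L M) := by
    intro ψ _ ψ' _ h
    funext n
    apply b.repr.injective
    ext i
    exact congrFun (congrFun h i) n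
  exact Set.Finite.of_injOn hmaps hinj (Set.Finite.pi fun _ => hY)

/-- The set of `S`-level `1`-cocycles is finite if the set of scalar level characters of `G_L`
is. -/
theorem finite_levelCocycles (M : Rep.{0, 0, 0} (ZMod p) (AlgebraicClosure ℚ ≃ₐ[ℚ] AlgebraicClosure ℚ))
    [FiniteDimensional (ZMod p) M]
    (L : IntermediateField ℚ (AlgebraicClosure ℚ)) (hLfin : FiniteDimensional ℚ L)
    (hLM : ∀ s ∈ L.fixingSubgroup, M.ρ s = 1)
    (hY : (LevelChar S L (ZMod p)).Finite) :
    {f : (AlgebraicClosure ℚ ≃ₐ[ℚ] AlgebraicClosure ℚ) → M |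
      f ∈ cocycles₁ M ∧ IsLevelConstantS₁ S f}.Finite := by
  classical
  haveI : Finite M := Module.finite_of_finite (ZMod p)
  have hidx : L.fixingSubgroup.index ≠ 0 := by
    rw [← finrank_eq_fixingSubgroup_index]
    exact Module.finrank_pos.ne'
  haveI : L.fixingSubgroup.FiniteIndex := ⟨hidx⟩
  haveI : Finite ((AlgebraicClosure ℚ ≃ₐ[ℚ] AlgebraicClosure ℚ) ⧸ L.fixingSubgroup) :=
    Subgroup.finite_quotient_of_finiteIndex
  have hYM := finite_levelChar_of_scalar (p := p) S L M hY
  let Φ : ((AlgebraicClosure ℚ ≃ₐ[ℚ] AlgebraicClosure ℚ) → M) →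
      (L.fixingSubgroup → M) ×
        (((AlgebraicClosure ℚ ≃ₐ[ℚ] AlgebraicClosure ℚ) ⧸ L.fixingSubgroup) → M) :=
    fun f => (fun n => f n, fun x => f x.out)
  have hmaps : Set.MapsTo Φ {f | f ∈ cocycles₁ M ∧ IsLevelConstantS₁ S f}
      ((LevelChar S L M) ×ˢ Set.univ) := by
    rintro f ⟨hf, F, hF, hconst⟩
    refine ⟨⟨fun a b => ?_, F, hF, fun s hs => ?_⟩, Set.mem_univ _⟩
    · have h := (mem_cocycles₁_iff f).1 hf (a : AlgebraicClosure ℚ ≃ₐ[ℚ] AlgebraicClosure ℚ) b
      simp only [Φ, Subgroup.coe_mul]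
      rw [h, hLM a a.2, Module.End.one_apply, add_comm]
    · have h := hconst 1 s hs
      have h1 : f 1 = 0 := cocycles₁_map_one (⟨f, hf⟩ : cocycles₁ M)
      simp only [Φ]
      rw [one_mul] at h
      rw [h, h1]
  have hinj : Set.InjOn Φ {f | f ∈ cocycles₁ M ∧ IsLevelConstantS₁ S f} := by
    rintro f ⟨hf, -⟩ f' ⟨hf', -⟩ h
    have h1 : ∀ n : L.fixingSubgroup, f n = f' n := fun n => congrFun (congrArg Prod.fst h) n
    have h2 : ∀ x : (AlgebraicClosure ℚ ≃ₐ[ℚ] AlgebraicClosure ℚ) ⧸ L.fixingSubgroup,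
        f x.out = f' x.out := fun x => congrFun (congrArg Prod.snd h) x
    funext g
    obtain ⟨n, hn⟩ := QuotientGroup.mk_out_eq_mul L.fixingSubgroup g
    have hg : g = (QuotientGroup.mk g :
        (AlgebraicClosure ℚ ≃ₐ[ℚ] AlgebraicClosure ℚ) ⧸ L.fixingSubgroup).out *
          ((n⁻¹ : L.fixingSubgroup) : AlgebraicClosure ℚ ≃ₐ[ℚ] AlgebraicClosure ℚ) := by
      rw [hn, Subgroup.coe_inv, mul_inv_cancel_right]
    rw [hg, (mem_cocycles₁_iff f).1 hf, (mem_cocycles₁_iff f').1 hf', h1, h2]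
  exact Set.Finite.of_injOn hmaps hinj (hYM.prod Set.finite_univ)

/-- **Reduction.**  `continuousH1S S M` is finite-dimensional if the set of scalar level characters
of `G_L` is finite. -/
theorem finiteDimensional_continuousH1S_of_levelChar
    (M : Rep.{0, 0, 0} (ZMod p) (AlgebraicClosure ℚ ≃ₐ[ℚ] AlgebraicClosure ℚ))
    [FiniteDimensional (ZMod p) M]
    (L : IntermediateField ℚ (AlgebraicClosure ℚ)) (hLfin : FiniteDimensional ℚ L)
    (hLM : ∀ s ∈ L.fixingSubgroup, M.ρ s = 1)
    (hY : (LevelChar S L (ZMod p)).Finite) :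
    FiniteDimensional (ZMod p) (continuousH1S S M) := by
  have hfin := finite_levelCocycles S M L hLfin hLM hY
  have hsub : ((continuousH1S S M : Submodule (ZMod p) (H1 M)) : Set (H1 M)) ⊆
      (fun f : {f : (AlgebraicClosure ℚ ≃ₐ[ℚ] AlgebraicClosure ℚ) → M |
          f ∈ cocycles₁ M ∧ IsLevelConstantS₁ S f} =>
        (H1π M).hom (⟨f.1, f.2.1⟩ : cocycles₁ M)) '' Set.univ := by
    intro x hx
    obtain ⟨c, hc, rfl⟩ := (mem_continuousH1S_iff S M x).1 hx
    exact ⟨⟨(c : (AlgebraicClosure ℚ ≃ₐ[ℚ] AlgebraicClosure ℚ) → M), c.2, hc⟩, Set.mem_univ _, rfl⟩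
  haveI := hfin.to_subtype
  have hfin2 : ((continuousH1S S M : Submodule (ZMod p) (H1 M)) : Set (H1 M)).Finite :=
    (Set.finite_univ.image _).subset hsub
  haveI : Finite (continuousH1S S M) := hfin2.to_subtype
  exact Module.Finite.of_finite

end Fermat.Agent.S55.H654
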