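import Fermat.Agent.S55.H654.H1Fin
import Fermat.Agent.S55.Bridge.InertiaConj
import Fermat.Agent.S55.Bridge.DualTwist
import Mathlib.RepresentationTheory.Homological.GroupCohomology.Hilbert90

set_option autoImplicit false
set_option linter.style.haveILetI false
set_option linter.unusedSectionVars false
set_option linter.unusedVariables false

namespace Fermat.Agent.S55.H654

open groupCohomology IntermediateField ExtCitation

attribute [local instance] Fermat.Agent.S55.Bridge.isAlgebraic_Qbar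
  Fermat.Agent.S55.Bridge.isGalois_Qbar

/-- `F'` viewed as an intermediate field of `ℚ̄/L` is finite over `L`. -/
theorem finiteDimensional_extendScalars {L F' : IntermediateField ℚ (AlgebraicClosure ℚ)}
    (h : L ≤ F') (hF' : FiniteDimensional ℚ F') :
    FiniteDimensional L (extendScalars h) := by
  haveI : FiniteDimensional ℚ (extendScalars h) := by
    let e : ↥F' ≃ₗ[ℚ] ↥(extendScalars h) :=
      { toFun := fun x => ⟨x.1, x.2⟩
        invFun := fun x => ⟨x.1, x.2⟩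
        map_add' := fun _ _ => rfl
        map_smul' := fun _ _ => rfl
        left_inv := fun _ => rfl
        right_inv := fun _ => rfl }
    exact e.finiteDimensional
  exact FiniteDimensional.right ℚ L (extendScalars h)

/-- `F'` viewed as an intermediate field of `ℚ̄/L` is normal over `L` if `F'/ℚ` is normal. -/
theorem normal_extendScalars {L F' : IntermediateField ℚ (AlgebraicClosure ℚ)}
    (h : L ≤ F') (hF' : Normal ℚ F') :
    Normal L (extendScalars h) := by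
  rw [normal_iff_forall_map_le']
  intro σ x hx
  obtain ⟨y, hy, rfl⟩ := hx
  have h1 := (normal_iff_forall_map_le' (K := F')).1 hF' (σ.restrictScalars ℚ)
  exact h1 ⟨y, hy, rfl⟩

variable {p : ℕ} [Fact p.Prime] (S : Finset Nat.Primes)

/-- An additive character of `G_L` vanishing on `G_L ∩ G_{F'}` only depends on the restriction
to `F'`. -/
theorem levelChar_eq_of_agree {L F' : IntermediateField ℚ (AlgebraicClosure ℚ)}
    {χ : L.fixingSubgroup → ZMod p}
    (hadd : ∀ a b, χ (a * b) = χ a + χ b)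
    (hvan : ∀ s : L.fixingSubgroup,
      (s : AlgebraicClosure ℚ ≃ₐ[ℚ] AlgebraicClosure ℚ) ∈ F'.fixingSubgroup → χ s = 0)
    (s t : L.fixingSubgroup)
    (hst : ∀ x ∈ F', (s : AlgebraicClosure ℚ ≃ₐ[ℚ] AlgebraicClosure ℚ) x =
      (t : AlgebraicClosure ℚ ≃ₐ[ℚ] AlgebraicClosure ℚ) x) : χ s = χ t := by
  have h1 : χ (s⁻¹ * t) = 0 := by
    apply hvan
    rw [IntermediateField.mem_fixingSubgroup_iff]
    intro x hx
    have : ((s⁻¹ * t : L.fixingSubgroup) : AlgebraicClosure ℚ ≃ₐ[ℚ] AlgebraicClosure ℚ) x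
        = (s : AlgebraicClosure ℚ ≃ₐ[ℚ] AlgebraicClosure ℚ)⁻¹
          ((t : AlgebraicClosure ℚ ≃ₐ[ℚ] AlgebraicClosure ℚ) x) := rfl
    rw [this, ← hst x hx]
    exact (s : AlgebraicClosure ℚ ≃ₐ[ℚ] AlgebraicClosure ℚ).symm_apply_apply x
  have h2 : χ t = χ (s * (s⁻¹ * t)) := by rw [mul_inv_cancel_left]
  rw [h2, hadd, h1, add_zero]

theorem pow_val_add_of_pow_eq_one {M : Type*} [Monoid M] {z : M} (hz : z ^ p = 1)
    (a b : ZMod p) : z ^ (a + b).val = z ^ a.val * z ^ b.val := by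
  rw [ZMod.val_add, ← pow_eq_pow_mod _ hz, pow_add]

/-- Abstract Kummer form of Hilbert 90: an additive character `c : Gal(E/K) → 𝔽_p` is the Kummer
character of some `β ≠ 0` when `ζ ∈ K`, `ζ ^ p = 1`. -/
theorem exists_kummer_of_hom {K E : Type*} [Field K] [Field E] [Algebra K E]
    [FiniteDimensional K E] {ζ : K} (hζp : ζ ^ p = 1) (hζ0 : ζ ≠ 0)
    (c : (E ≃ₐ[K] E) → ZMod p) (hc : ∀ g h, c (g * h) = c g + c h) :
    ∃ β : E, β ≠ 0 ∧ ∀ g : E ≃ₐ[K] E, g β = algebraMap K E ζ ^ (c g).val * β := by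
  have hζE0 : algebraMap K E ζ ≠ 0 := by
    rw [Ne, map_eq_zero_iff _ (algebraMap K E).injective]
    exact hζ0
  let ζE : Eˣ := Units.mk0 (algebraMap K E ζ) hζE0
  have hζEp : ζE ^ p = 1 := by
    apply Units.ext
    simp [ζE, ← map_pow, hζp]
  have hfix : ∀ g : (E ≃ₐ[K] E), g • ζE = ζE := by
    intro g
    apply Units.ext
    rw [AlgEquiv.smul_units_def]
    exact g.commutes ζ
  let f : (E ≃ₐ[K] E) → Eˣ := fun τ => ζE ^ (c τ).val
  have hf : IsMulCocycle₁ f := by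
    intro g h
    have h2 : g • f h = f h := by
      simp only [f]
      rw [smul_pow', hfix g]
    rw [h2]
    simp only [f]
    rw [hc, pow_val_add_of_pow_eq_one hζEp, mul_comm]
  obtain ⟨β, hβ⟩ := isMulCoboundary₁_of_isMulCocycle₁_of_aut_to_units f hf
  refine ⟨(β : E), β.ne_zero, fun g => ?_⟩
  have h2 := hβ g
  rw [div_eq_iff_eq_mul] at h2
  have := congrArg (fun u : Eˣ => (u : E)) h2
  simpa [AlgEquiv.smul_units_def, f, ζE] using this

/-- **Hilbert 90 for level characters.** If `ζ ∈ L` is a primitive `p`-th root of unity, every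
`S`-level character `χ : G_L → 𝔽_p` is the Kummer character of some `β ≠ 0` in a finite Galois
`F'/ℚ` unramified outside `S`. -/
theorem exists_kummer_generator (L : IntermediateField ℚ (AlgebraicClosure ℚ))
    (hL : L.IsUnramifiedOutside S)
    {ζ : AlgebraicClosure ℚ} (hζ : IsPrimitiveRoot ζ p) (hζL : ζ ∈ L)
    {χ : L.fixingSubgroup → ZMod p} (hχ : χ ∈ LevelChar S L (ZMod p)) :
    ∃ (F' : IntermediateField ℚ (AlgebraicClosure ℚ)) (β : AlgebraicClosure ℚ),
      F'.IsUnramifiedOutside S ∧ IsGalois ℚ F' ∧ L ≤ F' ∧ β ∈ F' ∧ β ≠ 0 ∧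
      ∀ σ : L.fixingSubgroup,
        (σ : AlgebraicClosure ℚ ≃ₐ[ℚ] AlgebraicClosure ℚ) β = ζ ^ (χ σ).val * β := by
  obtain ⟨hadd, F, hF, hvan⟩ := hχ
  obtain ⟨F', hF', hGal, hle⟩ := Bridge.exists_galois_level_ge S (L ⊔ F) (hL.sup hF)
  have hLF' : L ≤ F' := le_sup_left.trans hle
  have hFF' : F ≤ F' := le_sup_right.trans hle
  have hvan' : ∀ s : L.fixingSubgroup,
      (s : AlgebraicClosure ℚ ≃ₐ[ℚ] AlgebraicClosure ℚ) ∈ F'.fixingSubgroup → χ s = 0 :=
    fun s hs => hvan s (IntermediateField.fixingSubgroup_antitone hFF' hs)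
  have hconst := levelChar_eq_of_agree hadd hvan'
  let E : IntermediateField L (AlgebraicClosure ℚ) := extendScalars hLF'
  haveI : FiniteDimensional L E := finiteDimensional_extendScalars hLF' hF'.1
  haveI : Normal L E := normal_extendScalars hLF' hGal.to_normal
  let lift : (E ≃ₐ[L] E) → L.fixingSubgroup :=
    fun τ => (fixingSubgroupEquiv L).symm (τ.liftNormal (AlgebraicClosure ℚ))
  have hlift : ∀ (τ : E ≃ₐ[L] E) (x : E),
      ((lift τ : AlgebraicClosure ℚ ≃ₐ[ℚ] AlgebraicClosure ℚ) (x : AlgebraicClosure ℚ))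
        = ((τ x : E) : AlgebraicClosure ℚ) := by
    intro τ x
    exact AlgEquiv.liftNormal_commutes τ (AlgebraicClosure ℚ) x
  have hζ0 : ζ ≠ 0 := hζ.ne_zero (Fact.out : p.Prime).ne_zero
  have hζp : ζ ^ p = 1 := hζ.pow_eq_one
  have hc : ∀ g h : (E ≃ₐ[L] E), χ (lift (g * h)) = χ (lift g) + χ (lift h) := by
    intro g h
    rw [← hadd]
    apply hconst
    intro x hx
    have e1 := hlift (g * h) ⟨x, hx⟩
    have e2 := hlift h ⟨x, hx⟩
    have e3 := hlift g (h ⟨x, hx⟩)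
    have e4 : ((lift g * lift h : L.fixingSubgroup) :
        AlgebraicClosure ℚ ≃ₐ[ℚ] AlgebraicClosure ℚ) x =
        (lift g : AlgebraicClosure ℚ ≃ₐ[ℚ] AlgebraicClosure ℚ)
          ((lift h : AlgebraicClosure ℚ ≃ₐ[ℚ] AlgebraicClosure ℚ) x) := rfl
    rw [e4]
    simp only at e1 e2
    rw [e1, e2, e3]
    rfl
  obtain ⟨β, hβ0, hβ⟩ := exists_kummer_of_hom (p := p) (K := L) (E := E)
    (ζ := ⟨ζ, hζL⟩) (Subtype.ext (by simpa using hζp))
    (fun h => hζ0 (congrArg Subtype.val h)) (fun τ => χ (lift τ)) hc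
  refine ⟨F', (β : AlgebraicClosure ℚ), hF', hGal, hLF', β.2, ?_, ?_⟩
  · intro h
    exact hβ0 (Subtype.ext h)
  · intro σ
    let σ' : AlgebraicClosure ℚ ≃ₐ[L] AlgebraicClosure ℚ := fixingSubgroupEquiv L σ
    let τ : E ≃ₐ[L] E := AlgEquiv.restrictNormalHom E σ'
    have hτ : ∀ x : E, ((τ x : E) : AlgebraicClosure ℚ) =
        (σ : AlgebraicClosure ℚ ≃ₐ[ℚ] AlgebraicClosure ℚ) (x : AlgebraicClosure ℚ) := by
      intro x
      exact AlgEquiv.restrictNormal_commutes σ' E x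
    have h1 : χ (lift τ) = χ σ := by
      apply hconst
      intro x hx
      rw [hlift τ ⟨x, hx⟩, hτ]
    have h3 := congrArg (fun u : E => (u : AlgebraicClosure ℚ)) (hβ τ)
    simp only [h1] at h3
    rw [← hτ, h3]
    rfl

/-- A primitive `p`-th root of unity in `ℚ̄` lies in `L` if `χ_p` is trivial on `G_L`. -/
theorem primitiveRoot_mem_of_cycloChar (L : IntermediateField ℚ (AlgebraicClosure ℚ))
    (hcyc : ∀ s ∈ L.fixingSubgroup, cycloChar p s = 1)
    {ζ : AlgebraicClosure ℚ} (hζ : ζ ^ p = 1) : ζ ∈ L := by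
  have hp0 : p ≠ 0 := (Fact.out : p.Prime).ne_zero
  have hζ0 : ζ ≠ 0 := fun h => by
    rw [h, zero_pow hp0] at hζ
    exact zero_ne_one hζ
  rw [← InfiniteGalois.fixedField_fixingSubgroup L, IntermediateField.mem_fixedField_iff]
  intro g hg
  have h1 := (Bridge.cycloChar_eq_one_iff p g).1 (hcyc g hg) (Units.mk0 ζ hζ0) (by
    haveI : NeZero p := ⟨hp0⟩
    rw [mem_rootsOfUnity]
    exact Units.ext (by simpa using hζ))
  simpa using h1

/-- Existence of a primitive `p`-th root of unity in `ℚ̄`. -/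
theorem exists_primitiveRoot_Qbar : ∃ ζ : AlgebraicClosure ℚ, IsPrimitiveRoot ζ p := by
  haveI : NeZero (p : AlgebraicClosure ℚ) := ⟨by
    exact_mod_cast (Fact.out : p.Prime).ne_zero⟩
  exact HasEnoughRootsOfUnity.exists_primitiveRoot (AlgebraicClosure ℚ) p

/-- `β` is a Kummer generator for the character `χ` of `G_L`. -/
def IsKummerGen (L : IntermediateField ℚ (AlgebraicClosure ℚ)) (ζ : AlgebraicClosure ℚ)
    (χ : L.fixingSubgroup → ZMod p) (β : AlgebraicClosure ℚ) : Prop :=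
  ∀ σ : L.fixingSubgroup,
    (σ : AlgebraicClosure ℚ ≃ₐ[ℚ] AlgebraicClosure ℚ) β = ζ ^ (χ σ).val * β

theorem IsKummerGen.pow_mem {L : IntermediateField ℚ (AlgebraicClosure ℚ)}
    {ζ : AlgebraicClosure ℚ} (hζ : ζ ^ p = 1)
    {χ : L.fixingSubgroup → ZMod p} {β : AlgebraicClosure ℚ} (h : IsKummerGen L ζ χ β) :
    β ^ p ∈ L := by
  rw [← InfiniteGalois.fixedField_fixingSubgroup L, IntermediateField.mem_fixedField_iff]
  intro g hg
  have h1 := h ⟨g, hg⟩
  simp only at h1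
  rw [map_pow, h1, mul_pow, ← pow_mul, mul_comm _ p, pow_mul, hζ, one_pow, one_mul]

/-- Two characters with Kummer generators whose `p`-th powers differ by a `p`-th power of `Lˣ`
are equal. -/
theorem IsKummerGen.eq_of_pow_eq {L : IntermediateField ℚ (AlgebraicClosure ℚ)}
    {ζ : AlgebraicClosure ℚ} (hζ : IsPrimitiveRoot ζ p) (hζL : ζ ∈ L)
    {χ χ' : L.fixingSubgroup → ZMod p} {β β' γ : AlgebraicClosure ℚ}
    (h : IsKummerGen L ζ χ β) (h' : IsKummerGen L ζ χ' β') (hβ : β ≠ 0) (hβ' : β' ≠ 0)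
    (hγL : γ ∈ L) (hγ : β' ^ p = β ^ p * γ ^ p) : χ = χ' := by
  have hp0 : p ≠ 0 := (Fact.out : p.Prime).ne_zero
  haveI : NeZero p := ⟨hp0⟩
  have hγ0 : γ ≠ 0 := by
    intro h0
    rw [h0, zero_pow hp0, mul_zero] at hγ
    exact hβ' (pow_eq_zero_iff hp0 |>.1 hγ)
  have hω : (β' / (β * γ)) ^ p = 1 := by
    rw [div_pow, mul_pow, hγ]
    exact div_self (mul_ne_zero (pow_ne_zero _ hβ) (pow_ne_zero _ hγ0))
  obtain ⟨i, -, hi⟩ := hζ.eq_pow_of_pow_eq_one hω
  have hβ'eq : β' = ζ ^ i * (β * γ) := by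
    rw [hi]
    field_simp
  funext σ
  have h1 := h σ
  have h2 := h' σ
  have hσζ : (σ : AlgebraicClosure ℚ ≃ₐ[ℚ] AlgebraicClosure ℚ) ζ = ζ :=
    (IntermediateField.mem_fixingSubgroup_iff L _).1 σ.2 ζ hζL
  have hσγ : (σ : AlgebraicClosure ℚ ≃ₐ[ℚ] AlgebraicClosure ℚ) γ = γ :=
    (IntermediateField.mem_fixingSubgroup_iff L _).1 σ.2 γ hγL
  have h3 : (σ : AlgebraicClosure ℚ ≃ₐ[ℚ] AlgebraicClosure ℚ) β' = ζ ^ (χ σ).val * β' := by
    conv_lhs => rw [hβ'eq]
    rw [map_mul, map_mul, map_pow, hσζ, hσγ, h1, hβ'eq]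
    ring
  rw [h2] at h3
  have h4 : ζ ^ (χ' σ).val = ζ ^ (χ σ).val := mul_right_cancel₀ hβ' h3
  have h5 := hζ.pow_inj (ZMod.val_lt _) (ZMod.val_lt _) h4
  exact (ZMod.val_injective p h5).symm

end Fermat.Agent.S55.H654
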