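import Fermat.Agent.S55.H654.Kummer
import Fermat.Agent.S55.H901.SelmerFinite
import Fermat.Agent.S55.Bridge.H594.Unram

set_option autoImplicit false
set_option linter.style.haveILetI false
set_option linter.unusedSectionVars false
set_option linter.unusedVariables false

/-!
# S55, leaf G5-FIN (helper654), part 3: finiteness of `H¹_cont(G_S, M)`

Kummer theory: `S`-level characters of `G_L` (`μ_p ⊂ L`) inject into the Selmer group
`L(S_L, p)`, which is finite (helper901).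
-/

namespace Fermat.Agent.S55.H654

open groupCohomology IntermediateField ExtCitation NumberField IsDedekindDomain

attribute [local instance] Fermat.Agent.S55.Bridge.isAlgebraic_Qbar
  Fermat.Agent.S55.Bridge.isGalois_Qbar Fermat.Agent.S55.Bridge.H594.numberField_of_finite

/-- If `q` is unramified in `E` (no prime of `𝓞 E` contains `q` to the second power), `v` is a
prime of `𝓞 K` over `q`, and `α ∈ Kˣ` becomes a `p`-th power in `E`, then `p ∣ v(α)`. -/
theorem dvd_valuationOfNeZero_of_pow_eq {K E : Type*} [Field K] [NumberField K] [Field E]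
    [NumberField E] [Algebra K E] {p : ℕ} (hp : p ≠ 0)
    (v : HeightOneSpectrum (𝓞 K)) (q : ℕ) (hqv : (q : 𝓞 K) ∈ v.asIdeal)
    (hunr : ∀ P : Ideal (𝓞 E), P.IsPrime → (q : 𝓞 E) ∈ P → (q : 𝓞 E) ∉ P ^ 2)
    (α : Kˣ) (β : E) (h : algebraMap K E α = β ^ p) :
    (p : ℤ) ∣ Multiplicative.toAdd (v.valuationOfNeZero α) := by
  haveI : v.asIdeal.IsMaximal := v.isMaximal
  obtain ⟨P, hPmax, hPover⟩ :=
    Ideal.exists_maximal_ideal_liesOver_of_isIntegral (S := 𝓞 E) v.asIdeal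
  have hP0 : P ≠ ⊥ := Ideal.ne_bot_of_liesOver_of_ne_bot v.ne_bot P
  let w : HeightOneSpectrum (𝓞 E) := ⟨P, hPmax.isPrime, hP0⟩
  haveI : w.asIdeal.LiesOver v.asIdeal := hPover
  have hle : Ideal.map (algebraMap (𝓞 K) (𝓞 E)) v.asIdeal ≤ P := by
    rw [Ideal.map_le_iff_le_comap]
    exact (Ideal.over_def P v.asIdeal).le
  have hqP : (q : 𝓞 E) ∈ P := by
    have := hle (Ideal.mem_map_of_mem (algebraMap (𝓞 K) (𝓞 E)) hqv)
    simpa using this
  have he : Ideal.ramificationIdx' v.asIdeal w.asIdeal = 1 := by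
    apply Ideal.ramificationIdx'_spec
    · simpa using hle
    · intro hcon
      have := hcon (Ideal.mem_map_of_mem (algebraMap (𝓞 K) (𝓞 E)) hqv)
      apply hunr P hPmax.isPrime hqP
      simpa using this
  have hval := HeightOneSpectrum.valuation_liesOver (K := K) E v w (α : K)
  rw [he, pow_one, h, map_pow] at hval
  have hβ0 : β ≠ 0 := by
    intro hβ
    rw [hβ, zero_pow hp] at h
    exact α.ne_zero ((map_eq_zero_iff _ (algebraMap K E).injective).1 h)
  have h1 : ((v.valuationOfNeZero α : Multiplicative ℤ) : WithZero (Multiplicative ℤ)) =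
      (((w.valuationOfNeZero (Units.mk0 β hβ0)) ^ p : Multiplicative ℤ) :
        WithZero (Multiplicative ℤ)) := by
    rw [WithZero.coe_pow, HeightOneSpectrum.valuationOfNeZero_eq,
      HeightOneSpectrum.valuationOfNeZero_eq]
    exact hval
  have h2 := WithZero.coe_inj.1 h1
  rw [h2, toAdd_pow, nsmul_eq_mul]
  exact dvd_mul_right _ _

theorem not_map_le_sq_of_ramificationIdx'_eq_one {R T : Type*} [CommRing R] [CommRing T]
    [Algebra R T] {p : Ideal R} {P : Ideal T}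
    (h : Ideal.ramificationIdx' p P = 1) : ¬ Ideal.map (algebraMap R T) p ≤ P ^ 2 := by
  intro hcon
  by_cases hb : BddAbove {n | Ideal.map (algebraMap R T) p ≤ P ^ n}
  · have h2 : 2 ≤ Ideal.ramificationIdx' p P := le_csSup hb hcon
    omega
  · have h0 : Ideal.ramificationIdx' p P = 0 := Nat.sSup_of_not_bddAbove hb
    omega

/-- A prime number `q ∉ S` is not in the square of any prime of `𝓞 F`, for `F` finite Galois and
unramified outside `S`. -/
theorem natCast_notMem_sq_of_isUnramifiedOutside (F : IntermediateField ℚ (AlgebraicClosure ℚ))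
    [FiniteDimensional ℚ F] [IsGalois ℚ F] (S : Finset Nat.Primes)
    (hF : F.IsUnramifiedOutside S) (q : Nat.Primes) (hq : q ∉ S)
    (P : Ideal (𝓞 F)) (hP : P.IsPrime) (hqP : ((q : ℕ) : 𝓞 F) ∈ P) :
    ((q : ℕ) : 𝓞 F) ∉ P ^ 2 := by
  haveI hgal : IsGaloisGroup (F ≃ₐ[ℚ] F) ℤ (𝓞 F) :=
    IsGaloisGroup.of_isFractionRing (F ≃ₐ[ℚ] F) ℤ (𝓞 F) ℚ F
  haveI hmax : (Ideal.span {((q : ℕ) : ℤ)}).IsMaximal :=
    PrincipalIdealRing.isMaximal_of_irreducible (Nat.prime_iff_prime_int.mp q.2).irreducible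
  haveI hprime : (Ideal.span {((q : ℕ) : ℤ)}).IsPrime := hmax.isPrime
  haveI := hP
  haveI := Bridge.H594.liesOver_span_of_natCast_mem F q.2 P hqP
  have h1 := (Bridge.H594.isUnramifiedOutside_iff_ramificationIdxIn F S).1 hF q hq
  have h2 := Ideal.ramificationIdxIn_eq_ramificationIdx (Ideal.span {((q : ℕ) : ℤ)}) P
    (F ≃ₐ[ℚ] F)
  have hq0 : Ideal.span {((q : ℕ) : ℤ)} ≠ ⊥ := by
    rw [Ne, Ideal.span_singleton_eq_bot]
    exact_mod_cast q.2.ne_zero
  have h3 := Ideal.ramificationIdx'_eq_ramificationIdx (Ideal.span {((q : ℕ) : ℤ)}) P hq0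
  have h4 : Ideal.ramificationIdx' (Ideal.span {((q : ℕ) : ℤ)}) P = 1 := by
    rw [h3, ← h2, h1]
  have h5 := not_map_le_sq_of_ramificationIdx'_eq_one h4
  intro hcon
  apply h5
  rw [Ideal.map_span, Ideal.span_le]
  rintro _ ⟨x, hx, rfl⟩
  rw [Set.mem_singleton_iff] at hx
  subst hx
  simpa using hcon

/-- Every height one prime of the ring of integers of a number field contains a prime number. -/
theorem exists_prime_natCast_mem {K : Type*} [Field K] [NumberField K]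
    (v : HeightOneSpectrum (𝓞 K)) : ∃ q : Nat.Primes, ((q : ℕ) : 𝓞 K) ∈ v.asIdeal := by
  have hne : v.asIdeal.under ℤ ≠ ⊥ := Ideal.under_ne_bot ℤ v.ne_bot
  haveI : (v.asIdeal.under ℤ).IsPrime := Ideal.IsPrime.under ℤ v.asIdeal
  obtain ⟨g, hg⟩ := (inferInstance : (v.asIdeal.under ℤ).IsPrincipal)
  have hg' : v.asIdeal.under ℤ = Ideal.span {g} := hg
  have hg0 : g ≠ 0 := by
    rintro rfl
    apply hne
    rw [hg']
    simp
  have hgp : Prime g := by
    rw [← Ideal.span_singleton_prime hg0, ← hg']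
    infer_instance
  have hq : (g.natAbs).Prime := Int.prime_iff_natAbs_prime.1 hgp
  refine ⟨⟨g.natAbs, hq⟩, ?_⟩
  have h1 : ((g.natAbs : ℕ) : ℤ) ∈ v.asIdeal.under ℤ := by
    rw [hg', Ideal.mem_span_singleton]
    exact Int.dvd_natCast.mpr (dvd_refl _)
  have h2 : algebraMap ℤ (𝓞 K) ((g.natAbs : ℕ) : ℤ) ∈ v.asIdeal := h1
  simpa using h2

/-- The primes of `𝓞 K` above a finite set `S` of prime numbers. -/
def primesAbove {K : Type*} [Field K] [NumberField K] (S : Finset Nat.Primes) :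
    Set (HeightOneSpectrum (𝓞 K)) :=
  {v | ∃ q ∈ S, ((q : ℕ) : 𝓞 K) ∈ v.asIdeal}

theorem primesAbove_finite {K : Type*} [Field K] [NumberField K] (S : Finset Nat.Primes) :
    (primesAbove (K := K) S).Finite := by
  have h : primesAbove (K := K) S =
      ⋃ q ∈ S, {v : HeightOneSpectrum (𝓞 K) | ((q : ℕ) : 𝓞 K) ∈ v.asIdeal} := by
    ext v
    simp [primesAbove]
  rw [h]
  refine Set.Finite.biUnion S.finite_toSet (fun q _ => ?_)
  have hq0 : Ideal.span {((q : ℕ) : 𝓞 K)} ≠ 0 := by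
    rw [Ne, Ideal.zero_eq_bot, Ideal.span_singleton_eq_bot]
    exact_mod_cast q.2.ne_zero
  refine (Ideal.finite_factors hq0).subset (fun v hv => ?_)
  simp only [Set.mem_ofPred_eq] at hv ⊢
  rw [Ideal.dvd_iff_le, Ideal.span_le, Set.singleton_subset_iff]
  exact hv

variable {p : ℕ} [Fact p.Prime] (S : Finset Nat.Primes)

/-- **Kummer classes are unramified outside `S`.** -/
theorem kummer_mem_selmerGroup (L : IntermediateField ℚ (AlgebraicClosure ℚ))
    [FiniteDimensional ℚ L] {F' : IntermediateField ℚ (AlgebraicClosure ℚ)}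
    (hF' : F'.IsUnramifiedOutside S) (hGal : IsGalois ℚ F') (hLF' : L ≤ F')
    {β : AlgebraicClosure ℚ} (hβF' : β ∈ F') (hβL : β ^ p ∈ L) (hβ0 : β ≠ 0) :
    (QuotientGroup.mk (Units.mk0 (⟨β ^ p, hβL⟩ : L)
        (fun h => pow_ne_zero p hβ0 (congrArg Subtype.val h))) :
      (↥L)ˣ ⧸ (powMonoidHom p : (↥L)ˣ →* (↥L)ˣ).range) ∈
      selmerGroup (R := 𝓞 L) (K := L) (S := primesAbove (K := L) S) (n := p) := by
  have hp0 : p ≠ 0 := (Fact.out : p.Prime).ne_zero
  haveI : FiniteDimensional ℚ F' := hF'.1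
  intro v hv
  rw [Fermat.Agent.S55.H901.valuationOfNeZeroMod_mk_eq_one_iff]
  obtain ⟨q, hq⟩ := exists_prime_natCast_mem v
  have hqS : q ∉ S := fun hqS => hv ⟨q, hqS, hq⟩
  letI : Algebra ↥L ↥F' := (IntermediateField.inclusion hLF').toRingHom.toAlgebra
  exact dvd_valuationOfNeZero_of_pow_eq (K := L) (E := F') hp0 v q hq
    (fun P hP hqP => natCast_notMem_sq_of_isUnramifiedOutside F' S hF' q hqS P hP hqP)
    _ ⟨β, hβF'⟩ (Subtype.ext rfl)

/-- **Finiteness of level characters** (Kummer theory + finiteness of the Selmer group). -/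
theorem finite_levelChar (L : IntermediateField ℚ (AlgebraicClosure ℚ))
    [FiniteDimensional ℚ L] (hL : L.IsUnramifiedOutside S)
    {ζ : AlgebraicClosure ℚ} (hζ : IsPrimitiveRoot ζ p) (hζL : ζ ∈ L) :
    (LevelChar S L (ZMod p)).Finite := by
  have hp0 : p ≠ 0 := (Fact.out : p.Prime).ne_zero
  let Sel : Subgroup ((↥L)ˣ ⧸ (powMonoidHom p : (↥L)ˣ →* (↥L)ˣ).range) :=
    selmerGroup (R := 𝓞 L) (K := L) (S := primesAbove (K := L) S) (n := p)
  have hfin : Finite Sel :=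
    Fermat.Agent.S55.H901.selmerGroup_finite (primesAbove_finite S) (Nat.pos_of_ne_zero hp0)
  -- the relation "c is the Kummer class of χ"
  let Rel : (L.fixingSubgroup → ZMod p) →
      ((↥L)ˣ ⧸ (powMonoidHom p : (↥L)ˣ →* (↥L)ˣ).range) → Prop :=
    fun χ c => ∃ (β : AlgebraicClosure ℚ) (hβL : β ^ p ∈ L) (hβ0 : β ≠ 0),
      IsKummerGen L ζ χ β ∧
      c = QuotientGroup.mk (Units.mk0 (⟨β ^ p, hβL⟩ : L)
        (fun h => pow_ne_zero p hβ0 (congrArg Subtype.val h)))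
  have hsub : ∀ c, {χ | Rel χ c}.Subsingleton := by
    rintro c χ ⟨β, hβL, hβ0, hgen, hc⟩ χ' ⟨β', hβ'L, hβ'0, hgen', hc'⟩
    rw [hc] at hc'
    rw [QuotientGroup.eq] at hc'
    obtain ⟨γ, hγ⟩ := hc'
    have hγ' := congrArg (fun u : (↥L)ˣ => ((u : L) : AlgebraicClosure ℚ)) hγ
    simp only [powMonoidHom_apply, Units.val_pow_eq_pow_val, SubmonoidClass.coe_pow,
      Units.val_mul, Units.val_inv_eq_inv_val, Units.val_mk0, MulMemClass.coe_mul,
      IntermediateField.coe_inv] at hγ'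
    refine IsKummerGen.eq_of_pow_eq hζ hζL hgen hgen' hβ0 hβ'0 (γ : L).2 ?_
    rw [hγ']
    field_simp
  have hex : ∀ χ ∈ LevelChar S L (ZMod p), ∃ c ∈ (Sel : Set ((↥L)ˣ ⧸ (powMonoidHom p : (↥L)ˣ →* (↥L)ˣ).range)), Rel χ c := by
    intro χ hχ
    obtain ⟨F', β, hF', hGal, hLF', hβF', hβ0, hgen⟩ := exists_kummer_generator S L hL hζ hζL hχ
    have hβL : β ^ p ∈ L := IsKummerGen.pow_mem hζ.pow_eq_one (χ := χ) hgen
    exact ⟨_, kummer_mem_selmerGroup S L hF' hGal hLF' hβF' hβL hβ0, β, hβL, hβ0, hgen, rfl⟩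
  have hfin' : (Sel : Set ((↥L)ˣ ⧸ (powMonoidHom p : (↥L)ˣ →* (↥L)ˣ).range)).Finite := Set.toFinite _
  refine (Set.Finite.biUnion hfin' (fun c _ => (hsub c).finite)).subset (fun χ hχ => ?_)
  obtain ⟨c, hc, hrel⟩ := hex χ hχ
  exact Set.mem_biUnion hc hrel

/-- **G5-FIN.** `H¹_cont(G_{ℚ,S}, M)` is finite-dimensional for every finite-dimensional smooth
`𝔽_p`-representation `M` of `G_ℚ` unramified outside `S ∋ p`. -/
theorem finiteDimensional_continuousH1S (hpS : pPrime p ∈ S)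
    (M : Rep.{0, 0, 0} (ZMod p) (AlgebraicClosure ℚ ≃ₐ[ℚ] AlgebraicClosure ℚ))
    [FiniteDimensional (ZMod p) M]
    (hsm : ∀ m : M, ∃ F : IntermediateField ℚ (AlgebraicClosure ℚ),
      FiniteDimensional ℚ F ∧ ∀ s ∈ F.fixingSubgroup, M.ρ s m = m)
    (hMur : ∀ q : Nat.Primes, q ∉ S → ∀ A : ValuationSubring (AlgebraicClosure ℚ),
      A.LiesOverPrime (q : ℕ) → ∀ g ∈ A.inertiaSubgroupIn ℚ, M.ρ g = 1) :
    FiniteDimensional (ZMod p) (continuousH1S S M) := by
  obtain ⟨L, hL, hGal, hLM, hcyc, -⟩ := Bridge.exists_common_galois_level M S hpS hsm hMur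
  obtain ⟨ζ, hζ⟩ := exists_primitiveRoot_Qbar (p := p)
  have hζL : ζ ∈ L := primitiveRoot_mem_of_cycloChar L hcyc hζ.pow_eq_one
  haveI : FiniteDimensional ℚ L := hL.1
  exact finiteDimensional_continuousH1S_of_levelChar S M L hL.1 hLM
    (finite_levelChar S L hL hζ hζL)

/-- `Ш¹_S(A)` is finite-dimensional. -/
theorem finiteDimensional_sha₁ (hpS : pPrime p ∈ S)
    (A : Rep.{0, 0, 0} (ZMod p) (AlgebraicClosure ℚ ≃ₐ[ℚ] AlgebraicClosure ℚ))
    [FiniteDimensional (ZMod p) A]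
    (hsm : ∀ m : A, ∃ F : IntermediateField ℚ (AlgebraicClosure ℚ),
      FiniteDimensional ℚ F ∧ ∀ s ∈ F.fixingSubgroup, A.ρ s m = m)
    (hur : ∀ q : Nat.Primes, q ∉ S → ∀ V : ValuationSubring (AlgebraicClosure ℚ),
      V.LiesOverPrime (q : ℕ) → ∀ g ∈ V.inertiaSubgroupIn ℚ, A.ρ g = 1) :
    FiniteDimensional (ZMod p) (sha₁ S A) := by
  haveI := finiteDimensional_continuousH1S S hpS A hsm hur
  exact Submodule.finiteDimensional_of_le (inf_le_left : sha₁ S A ≤ continuousH1S S A)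

/-- `Ш¹_S(M^∨(1))` is finite-dimensional: the `Ш¹` side of the frozen statement S55. -/
theorem finiteDimensional_sha₁_dualTwist (hpS : pPrime p ∈ S)
    (M : Rep.{0, 0, 0} (ZMod p) (AlgebraicClosure ℚ ≃ₐ[ℚ] AlgebraicClosure ℚ))
    [FiniteDimensional (ZMod p) M]
    (hsm : ∀ m : M, ∃ F : IntermediateField ℚ (AlgebraicClosure ℚ),
      FiniteDimensional ℚ F ∧ ∀ s ∈ F.fixingSubgroup, M.ρ s m = m)
    (hMur : ∀ q : Nat.Primes, q ∉ S → ∀ A : ValuationSubring (AlgebraicClosure ℚ),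
      A.LiesOverPrime (q : ℕ) → ∀ g ∈ A.inertiaSubgroupIn ℚ, M.ρ g = 1) :
    FiniteDimensional (ZMod p) (sha₁ S (M.dualTwist (cycloChar p))) := by
  haveI : FiniteDimensional (ZMod p) (M.dualTwist (cycloChar p)) :=
    inferInstanceAs (FiniteDimensional (ZMod p) (Module.Dual (ZMod p) M))
  exact finiteDimensional_sha₁ S hpS _ (Bridge.dualTwist_smooth M hsm)
    (Bridge.dualTwist_unramified M S hpS hMur)

end Fermat.Agent.S55.H654
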